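/-
MAZ programme (S15), chapter F-G0 (place reductions at arbitrary level), helper71:
**uniqueness of the place reduction.**

Setting of the Prelude (`Def_ModularCurve_ReductionModL`): `A` a valuation subring of `L`,
`π : A →+* k`, `F = L·F_N`, `F̃ = k(j(q^d) : d ∣ N)`.  If `r₁, r₂ : Place L F → Place k F̃` both
satisfy `IsPlaceReductionAlong A π N`, principal divisors are generated by divisors of integral
functions (`PrincipalGeneratedByIntegral`), `Pic⁰(F)` is divisible, all places of `F` have degree `1`,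
and some integral function has a reduction with nonzero divisor, then `r₁ = r₂`.

Idea (helper56's divisibility trick): `δ := r₁_* - r₂_*` kills divisors of integral functions, hence
all principal divisors; on `Div⁰` it therefore factors through the divisible group `Pic⁰(F)`, while
`Div(F̃)` is free; so `δ = 0` on `Div⁰`, i.e. `[r₁ P] - [r₂ P]` does not depend on `P`; if it were
nonzero both maps would be constant, and then every integral function would have reduction with
trivial divisor.

* `mapDomain_eq_of_integral`, `mapDomain_eq_of_principal`, `mapDomain_eq_of_degZero`;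
* `isPlaceReductionAlong_unique`;
* `reductionAlong_eq_of_isPlaceReduction` : the Prelude's `reductionAlong` (defined by `choose`) is the
  `Pic⁰` map of ANY place reduction.
-/
import Mathlib
import Fermat.Prelude.Def_ModularCurve_ReductionModL

set_option autoImplicit false
set_option linter.unusedSectionVars false

noncomputable section

open HahnSeries IntermediateField AlgebraicCurve ModularCurve

namespace Fermat.Agent.MAZ.G0.Unique

variable {L : Type*} [Field L] [Algebra ℚ L] {A : ValuationSubring L}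
variable {k : Type*} [Field k] {π : A →+* k} {N : ℕ}

local notation "FL" => (laurentBaseChange L (modularFunctionFieldFull N))
local notation "Fk" => (modularFunctionFieldFullC k N)

variable {r₁ r₂ : Place L (laurentBaseChange L (modularFunctionFieldFull N)) →
  Place k (modularFunctionFieldFullC k N)}

/-- two place reductions agree on divisors of integral functions. -/
theorem mapDomain_eq_of_integral (hr₁ : IsPlaceReductionAlong A π N r₁)
    (hr₂ : IsPlaceReductionAlong A π N r₂) {D : Divisor L FL}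
    (hD : D ∈ integralPrincipalDivisors A π N) :
    Finsupp.mapDomain r₁ D = Finsupp.mapDomain r₂ D := by
  obtain ⟨y, hy, hyk, hne, hDy⟩ := hD
  ext Q
  rw [hr₁.2 y hy hyk hne D hDy Q, hr₂.2 y hy hyk hne D hDy Q]

/-- two place reductions agree on principal divisors. -/
theorem mapDomain_eq_of_principal (hr₁ : IsPlaceReductionAlong A π N r₁)
    (hr₂ : IsPlaceReductionAlong A π N r₂) (hgen : PrincipalGeneratedByIntegral A π N)
    {D : Divisor L FL} (hD : D ∈ Divisor.principal (K := L) (F := FL)) :
    Finsupp.mapDomain r₁ D = Finsupp.mapDomain r₂ D := by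
  have hD' := hgen hD
  clear hD
  induction hD' using AddSubgroup.closure_induction with
  | mem E hE => exact mapDomain_eq_of_integral hr₁ hr₂ hE
  | zero => rw [Finsupp.mapDomain_zero, Finsupp.mapDomain_zero]
  | add E E' _ _ hE hE' => rw [Finsupp.mapDomain_add, Finsupp.mapDomain_add, hE, hE']
  | neg E _ hE =>
    rw [← Finsupp.mapDomain.addMonoidHom_apply, ← Finsupp.mapDomain.addMonoidHom_apply, map_neg,
      map_neg, Finsupp.mapDomain.addMonoidHom_apply, Finsupp.mapDomain.addMonoidHom_apply, hE]

/-- an integer divisible by every positive integer vanishes. -/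
theorem int_eq_zero_of_forall_dvd {z : ℤ} (h : ∀ n : ℕ, 0 < n → (n : ℤ) ∣ z) : z = 0 := by
  by_contra hz
  have h1 := h (z.natAbs + 1) (Nat.succ_pos _)
  have h2 : ((z.natAbs + 1 : ℕ) : ℤ) ≤ |z| := by
    have := Int.le_of_dvd (abs_pos.mpr hz) ((dvd_abs _ _).mpr h1)
    exact this
  have h3 : (z.natAbs : ℤ) = |z| := Int.natCast_natAbs z
  push_cast at h2
  omega

/-- two place reductions agree on divisors of degree zero, if `Pic⁰` is divisible. -/
theorem mapDomain_eq_of_degZero (hr₁ : IsPlaceReductionAlong A π N r₁)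
    (hr₂ : IsPlaceReductionAlong A π N r₂) (hgen : PrincipalGeneratedByIntegral A π N)
    (hdiv : ∀ (x : Pic0 L FL) (n : ℕ), 0 < n → ∃ y : Pic0 L FL, n • y = x)
    {D : Divisor L FL} (hD : D ∈ Divisor.degZero (K := L) (F := FL)) :
    Finsupp.mapDomain r₁ D = Finsupp.mapDomain r₂ D := by
  ext Q
  rw [← sub_eq_zero]
  apply int_eq_zero_of_forall_dvd
  intro n hn
  obtain ⟨y, hy⟩ := hdiv (Pic0.mk ⟨D, hD⟩) n hn
  obtain ⟨E, rfl⟩ := Pic0.mk_surjective y
  -- `n • E - D` is principal
  have hpr : ((n • E - ⟨D, hD⟩ : Divisor.degZero (K := L) (F := FL)) : Divisor L FL) ∈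
      Divisor.principal (K := L) (F := FL) := by
    have h0 : Pic0.mk (n • E - ⟨D, hD⟩) = 0 := by
      have h1 : Pic0.mk (n • E - ⟨D, hD⟩) = n • Pic0.mk E - Pic0.mk ⟨D, hD⟩ := rfl
      rw [h1, hy, sub_self]
    have h2 := (QuotientAddGroup.eq_zero_iff _).mp h0
    exact AddSubgroup.mem_addSubgroupOf.mp h2
  have hcoe : ((n • E - ⟨D, hD⟩ : Divisor.degZero (K := L) (F := FL)) : Divisor L FL) =
      n • (E : Divisor L FL) - D := by
    push_cast
    rfl
  rw [hcoe] at hpr
  have h3 := mapDomain_eq_of_principal hr₁ hr₂ hgen hpr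
  have h4 : ∀ r : Place L FL → Place k Fk,
      Finsupp.mapDomain r (n • (E : Divisor L FL) - D) =
        n • Finsupp.mapDomain r (E : Divisor L FL) - Finsupp.mapDomain r D := by
    intro r
    rw [← Finsupp.mapDomain.addMonoidHom_apply, map_sub, map_nsmul,
      Finsupp.mapDomain.addMonoidHom_apply, Finsupp.mapDomain.addMonoidHom_apply]
  rw [h4 r₁, h4 r₂] at h3
  have h5 := DFunLike.congr_fun h3 Q
  rw [Finsupp.sub_apply, Finsupp.sub_apply, Finsupp.smul_apply, Finsupp.smul_apply, nsmul_eq_mul,
    nsmul_eq_mul] at h5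
  refine ⟨Finsupp.mapDomain r₁ (E : Divisor L FL) Q - Finsupp.mapDomain r₂ (E : Divisor L FL) Q, ?_⟩
  linarith

/-- the difference `[r₁ P] - [r₂ P]` does not depend on `P`. -/
theorem single_sub_single_eq (hr₁ : IsPlaceReductionAlong A π N r₁)
    (hr₂ : IsPlaceReductionAlong A π N r₂) (hgen : PrincipalGeneratedByIntegral A π N)
    (hdiv : ∀ (x : Pic0 L FL) (n : ℕ), 0 < n → ∃ y : Pic0 L FL, n • y = x)
    (hdeg : ∀ P : Place L FL, P.deg = 1) (P₁ P₂ : Place L FL) :
    (Finsupp.single (r₁ P₁) 1 - Finsupp.single (r₂ P₁) 1 : Divisor k Fk) =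
      Finsupp.single (r₁ P₂) 1 - Finsupp.single (r₂ P₂) 1 := by
  have hD : (Finsupp.single P₁ 1 - Finsupp.single P₂ 1 : Divisor L FL) ∈
      Divisor.degZero (K := L) (F := FL) := by
    rw [Divisor.mem_degZero, map_sub, Divisor.degree_single, Divisor.degree_single, hdeg, hdeg,
      sub_self]
  have h := mapDomain_eq_of_degZero hr₁ hr₂ hgen hdiv hD
  have h4 : ∀ r : Place L FL → Place k Fk,
      Finsupp.mapDomain r (Finsupp.single P₁ 1 - Finsupp.single P₂ 1 : Divisor L FL) =
        Finsupp.single (r P₁) 1 - Finsupp.single (r P₂) 1 := by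
    intro r
    rw [← Finsupp.mapDomain.addMonoidHom_apply, map_sub, Finsupp.mapDomain.addMonoidHom_apply,
      Finsupp.mapDomain.addMonoidHom_apply, Finsupp.mapDomain_single, Finsupp.mapDomain_single]
  rw [h4 r₁, h4 r₂] at h
  -- rearrange
  have : (Finsupp.single (r₁ P₁) 1 - Finsupp.single (r₂ P₁) 1 : Divisor k Fk) -
      (Finsupp.single (r₁ P₂) 1 - Finsupp.single (r₂ P₂) 1) = 0 := by
    have h' := sub_eq_zero.mpr h
    rw [← h']
    abel
  exact sub_eq_zero.mp this

/-- if `r₁ P₀ ≠ r₂ P₀` for some `P₀`, then `r₁` is constant. -/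
theorem const_of_ne (hr₁ : IsPlaceReductionAlong A π N r₁)
    (hr₂ : IsPlaceReductionAlong A π N r₂) (hgen : PrincipalGeneratedByIntegral A π N)
    (hdiv : ∀ (x : Pic0 L FL) (n : ℕ), 0 < n → ∃ y : Pic0 L FL, n • y = x)
    (hdeg : ∀ P : Place L FL, P.deg = 1) {P₀ : Place L FL} (hne : r₁ P₀ ≠ r₂ P₀)
    (P : Place L FL) : r₁ P = r₁ P₀ := by
  classical
  have h := single_sub_single_eq hr₁ hr₂ hgen hdiv hdeg P P₀
  have h1 := DFunLike.congr_fun h (r₁ P₀)
  rw [Finsupp.sub_apply, Finsupp.sub_apply, Finsupp.single_apply, Finsupp.single_apply,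
    Finsupp.single_apply, Finsupp.single_apply, if_pos rfl, if_neg (Ne.symm hne)] at h1
  by_contra hP
  rw [if_neg hP] at h1
  split_ifs at h1 <;> omega

/-- **Uniqueness of the place reduction.** -/
theorem isPlaceReductionAlong_unique [HasPrincipalDivisors L FL]
    (hr₁ : IsPlaceReductionAlong A π N r₁)
    (hr₂ : IsPlaceReductionAlong A π N r₂) (hgen : PrincipalGeneratedByIntegral A π N)
    (hdiv : ∀ (x : Pic0 L FL) (n : ℕ), 0 < n → ∃ y : Pic0 L FL, n • y = x)
    (hdeg : ∀ P : Place L FL, P.deg = 1)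
    (hnc : ∃ (y : LaurentSeries A) (_ : coeffMap A.subtype y ∈ FL)
      (hyk : coeffMap π y ∈ Fk) (Q : Place k Fk), coeffMap π y ≠ 0 ∧
        Q.ord (⟨coeffMap π y, hyk⟩ : Fk) ≠ 0) :
    r₁ = r₂ := by
  classical
  funext P₀
  by_contra hne
  obtain ⟨y, hy, hyk, Q, hy0, hQ⟩ := hnc
  -- the divisor of `y`
  have hyL : (⟨coeffMap A.subtype y, hy⟩ : FL) ≠ 0 := by
    intro h0
    apply hy0
    have h1 : coeffMap A.subtype y = 0 := congrArg Subtype.val h0
    have h2 : y = 0 := by
      ext n
      have := congrArg (fun z : LaurentSeries L => z.coeff n) h1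
      simpa using this
    rw [h2, map_zero]
  obtain ⟨D, hD, hdegD⟩ := HasPrincipalDivisors.exists_divisor (K := L)
    (⟨coeffMap A.subtype y, hy⟩ : FL) hyL
  have h1 := hr₁.2 y hy hyk hy0 D hD Q
  -- `r₁` is constant, so `r₁_* D = deg D • [r₁ P₀] = 0`
  have hconst : ∀ P, r₁ P = r₁ P₀ := const_of_ne hr₁ hr₂ hgen hdiv hdeg hne
  have h2 : Finsupp.mapDomain r₁ D = Finsupp.single (r₁ P₀) (Divisor.degree D) := by
    have : ∀ E : Divisor L FL,
        Finsupp.mapDomain r₁ E = Finsupp.single (r₁ P₀) (Divisor.degree E) := by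
      intro E
      induction E using Finsupp.induction with
      | zero => simp
      | single_add P n E _ _ ih =>
        rw [Finsupp.mapDomain_add, map_add, Finsupp.single_add, ih, Finsupp.mapDomain_single,
          Divisor.degree_single, hdeg, hconst P, Nat.cast_one, mul_one]
    exact this D
  rw [h2, hdegD, Finsupp.single_zero, Finsupp.zero_apply] at h1
  exact hQ h1.symm

/-- the Prelude's `reductionAlong` is the `Pic⁰` map of any place reduction. -/
theorem reductionAlong_eq_of_isPlaceReduction [HasPrincipalDivisors L FL]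
    {r : Place L FL → Place k Fk}
    (hr : IsPlaceReductionAlong A π N r) (hgen : PrincipalGeneratedByIntegral A π N)
    (hdiv : ∀ (x : Pic0 L FL) (n : ℕ), 0 < n → ∃ y : Pic0 L FL, n • y = x)
    (hdeg : ∀ P : Place L FL, P.deg = 1)
    (hnc : ∃ (y : LaurentSeries A) (_ : coeffMap A.subtype y ∈ FL)
      (hyk : coeffMap π y ∈ Fk) (Q : Place k Fk), coeffMap π y ≠ 0 ∧
        Q.ord (⟨coeffMap π y, hyk⟩ : Fk) ≠ 0) :
    reductionAlong A π N = reductionPic0Along r hr hgen := by
  have h : ReductionInputsAlong A π N := ⟨r, hr, hgen⟩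
  rw [reductionAlong_eq h]
  have huniq : h.choose = r :=
    isPlaceReductionAlong_unique h.choose_spec.1 hr hgen hdiv hdeg hnc
  -- transport along `huniq`
  have key : ∀ (r' : Place L FL → Place k Fk) (hr' : IsPlaceReductionAlong A π N r')
      (hg' : PrincipalGeneratedByIntegral A π N), r' = r →
      reductionPic0Along r' hr' hg' = reductionPic0Along r hr hgen := by
    intro r' hr' hg' e
    subst e
    rfl
  exact key _ _ _ huniq

end Fermat.Agent.MAZ.G0.Unique
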